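import Fermat.Agent.S34.Mod.W
import Fermat.Agent.S36.AuxL.Incl
import Fermat.Agent.S18.Ctx
import Fermat.Agent.NEW.Defs

set_option autoImplicit false

/-!
# S35, chapter C : the Atkin-Lehner involution `w_q` of `F_{Nq}` over `ℚ̄` (`q ∤ N`)

`WF N q : FN (N * q) ≃ₐ[Kb] FN (N * q)` is `Mod.wQ Kb (N * q) q` transported along `Mod.FK_Kb`.
It exchanges `α` and `β`, is an involution, commutes with the Galois action, with the change of the constant field and with
the change of the auxiliary level.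
-/

noncomputable section

namespace Fermat.Agent.S35

open AlgebraicCurve ModularCurve
open Fermat.Agent.S24 (Kb FN iotaK)
open Fermat.Agent.GES
open Fermat.Agent.S36.AuxL (inclF coe_inclF)

theorem coe_equivOfEq_aux {K L : Type*} [Field K] [Field L] [Algebra K L]
    {S T : IntermediateField K L} (h : S = T) (x : S) :
    (IntermediateField.equivOfEq h x : L) = x := by
  subst h; rfl

theorem coe_equivOfEq_symm_aux {K L : Type*} [Field K] [Field L] [Algebra K L]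
    {S T : IntermediateField K L} (h : S = T) (x : T) :
    ((IntermediateField.equivOfEq h).symm x : L) = x := by
  subst h; rfl

/-- `F_N = F_{N, ℚ̄}`. -/
def eFK (N : ℕ) [NeZero N] : FN N ≃ₐ[Kb] Mod.FK Kb N :=
  IntermediateField.equivOfEq (Mod.FK_Kb N).symm

theorem coe_eFK (N : ℕ) [NeZero N] (x : FN N) : (eFK N x : LaurentSeries Kb) = x :=
  coe_equivOfEq_aux _ x

theorem coe_eFK_symm (N : ℕ) [NeZero N] (x : Mod.FK Kb N) :
    ((eFK N).symm x : LaurentSeries Kb) = x := coe_equivOfEq_symm_aux _ x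

/-- the Atkin-Lehner involution at `q` of `F_{Nq}`. -/
def WF (N q : ℕ) [NeZero N] [NeZero q] : FN (N * q) ≃ₐ[Kb] FN (N * q) :=
  (eFK (N * q)).trans ((Mod.wQ Kb (N * q) q).trans (eFK (N * q)).symm)

theorem WF_apply (N q : ℕ) [NeZero N] [NeZero q] (y : FN (N * q)) :
    WF N q y = (eFK (N * q)).symm (Mod.wQ Kb (N * q) q (eFK (N * q) y)) := by
  rw [WF, AlgEquiv.trans_apply, AlgEquiv.trans_apply]

theorem coe_WF (N q : ℕ) [NeZero N] [NeZero q] (y : FN (N * q)) :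
    (WF N q y : LaurentSeries Kb) = (Mod.wQ Kb (N * q) q (eFK (N * q) y) : LaurentSeries Kb) := by
  rw [WF_apply, coe_eFK_symm]

theorem eFK_WF (N q : ℕ) [NeZero N] [NeZero q] (y : FN (N * q)) :
    eFK (N * q) (WF N q y) = Mod.wQ Kb (N * q) q (eFK (N * q) y) := by
  rw [WF_apply, AlgEquiv.apply_symm_apply]

section
variable (N q : ℕ) [NeZero N] [NeZero q] (hc : Nat.Coprime q N)

theorem coprime_div_aux {N q : ℕ} [NeZero q] (hc : Nat.Coprime q N) :
    Nat.Coprime q (N * q / q) := by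
  rwa [Nat.mul_div_cancel _ (Nat.pos_of_ne_zero (NeZero.ne q))]

include hc

theorem WF_WF (y : FN (N * q)) : WF N q (WF N q y) = y := by
  apply Subtype.ext
  rw [coe_WF, eFK_WF, Mod.wQ_wQ Kb (N * q) q (dvd_mul_left q N) (coprime_div_aux hc), coe_eFK]

theorem WF_alpha (r : FN N) : WF N q (heckeAlphaBar Kb N q r) = heckeBetaBar Kb N q r := by
  apply Subtype.ext
  rw [coe_WF, coe_heckeBetaBar]
  have h1 : (eFK (N * q) (heckeAlphaBar Kb N q r)).1 = r.1 := by
    rw [coe_eFK, coe_heckeAlphaBar]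
  have hm : (eFK (N * q) (heckeAlphaBar Kb N q r)).1 ∈ Mod.FK Kb (N * q / q) := by
    rw [Nat.mul_div_cancel _ (Nat.pos_of_ne_zero (NeZero.ne q)), Mod.FK_Kb N, h1]
    exact r.2
  rw [Mod.wQ_of_mem Kb (N * q) q (dvd_mul_left q N) (coprime_div_aux hc) _ hm, h1]

theorem WF_beta (r : FN N) : WF N q (heckeBetaBar Kb N q r) = heckeAlphaBar Kb N q r := by
  rw [← WF_alpha N q hc, WF_WF N q hc]

theorem WF_galF (σ : GQ) (y : FN (N * q)) :
    WF N q (galF (N * q) σ y) = galF (N * q) σ (WF N q y) := by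
  apply Subtype.ext
  rw [coe_WF, coe_galF, coe_WF]
  have h := Mod.wQ_mapFK Kb (N * q) q (dvd_mul_left q N) (coprime_div_aux hc) (σ : Kb →+* Kb)
    (eFK (N * q) y)
  have h1 : eFK (N * q) (galF (N * q) σ y) = Mod.mapFK (σ : Kb →+* Kb) (N * q) (eFK (N * q) y) := by
    apply Subtype.ext
    rw [coe_eFK, coe_galF, Mod.coe_mapFK, coe_eFK]
  rw [h1, h, Mod.coe_mapFK]

theorem WF_toFN {K : Type} [Field K] [CharZero K] (ι : K →+* Kb) (z : Mod.FK K (N * q)) :
    WF N q (S18.toFN ι (N * q) z) = S18.toFN ι (N * q) (Mod.wQ K (N * q) q z) := by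
  apply Subtype.ext
  rw [coe_WF, S18.toFN_coe]
  have h := Mod.wQ_mapFK K (N * q) q (dvd_mul_left q N) (coprime_div_aux hc) ι z
  have h1 : eFK (N * q) (S18.toFN ι (N * q) z) = Mod.mapFK ι (N * q) z := by
    apply Subtype.ext
    rw [coe_eFK, S18.toFN_coe, Mod.coe_mapFK]
  rw [h1, h, Mod.coe_mapFK]

end

theorem WF_inclF (q : ℕ) [NeZero q] {P₁ P₂ : ℕ} [NeZero P₁] [NeZero P₂] (h : P₁ ∣ P₂)
    (hc : Nat.Coprime q P₂) (x : FN (P₁ * q)) :
    WF P₂ q (inclF (Nat.mul_dvd_mul_right h q) x) = inclF (Nat.mul_dvd_mul_right h q) (WF P₁ q x) := by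
  apply Subtype.ext
  rw [coe_WF, coe_inclF, coe_WF]
  have hc1 : Nat.Coprime q P₁ := Nat.Coprime.coprime_dvd_right h hc
  have he : (eFK (P₂ * q) (inclF (Nat.mul_dvd_mul_right h q) x)).1 = (eFK (P₁ * q) x).1 := by
    rw [coe_eFK, coe_inclF, coe_eFK]
  have hm : (eFK (P₁ * q) x).1 ∈ Mod.FK Kb (P₂ * q) := by
    rw [← he]
    exact (eFK (P₂ * q) (inclF (Nat.mul_dvd_mul_right h q) x)).2
  have h2 := Mod.wQ_level Kb (P₁ * q) q (dvd_mul_left q P₁) (coprime_div_aux hc1) (P₂ * q)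
    (Nat.mul_dvd_mul_right h q) (coprime_div_aux hc) (eFK (P₁ * q) x) hm
  have h3 : eFK (P₂ * q) (inclF (Nat.mul_dvd_mul_right h q) x) = ⟨(eFK (P₁ * q) x).1, hm⟩ :=
    Subtype.ext he
  rw [← h2, h3]

end Fermat.Agent.S35
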