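import Fermat.Agent.S35.C.W
import Fermat.Agent.S34.V2.ConcB
import Fermat.Agent.GES.IntSmall

set_option autoImplicit false
set_option linter.unusedSectionVars false

/-!
# S35, chapter C : the bridge between the Gauss valuation rings over the number fields `K` and predicates over `ℚ̄`

`GI A f` : `f = α / β` with `α, β ∈ A((Q))`, `β ≢ 0`;   `GS A f` : moreover `α ≡ 0`.
For `(K, ι)` with `R = A ∩ K` a DVR and `f ∈ Frac R((Q))`:   `f ∈ gaussL R K ↔ GI A (ι f)`,   `f ∈ 𝔪 ↔ GS A (ι f)`.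
So the congruences on the two branches can be moved from one number field to another one.
-/

noncomputable section

namespace Fermat.Agent.S35

open AlgebraicCurve ModularCurve
open Fermat.Agent.S24 (Kb FN iotaK)
open Fermat.Agent.S18 (IntA SmallA toFN)
open Fermat.Agent.S18.V (cR)
open Fermat.Agent.GES
open Fermat.Agent.S34.V2

/-- Gauss-integral. -/
def GI (A : ValuationSubring Kb) (f : LaurentSeries Kb) : Prop :=
  ∃ α β : LaurentSeries Kb, IntA A α ∧ IntA A β ∧ ¬ SmallA A β ∧ f * β = α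

/-- Gauss-small. -/
def GS (A : ValuationSubring Kb) (f : LaurentSeries Kb) : Prop :=
  ∃ α β : LaurentSeries Kb, SmallA A α ∧ IntA A β ∧ ¬ SmallA A β ∧ f * β = α

theorem GS.gi {A : ValuationSubring Kb} {f : LaurentSeries Kb} (h : GS A f) : GI A f := by
  obtain ⟨α, β, h1, h2, h3, h4⟩ := h
  exact ⟨α, β, SmallA.intA h1, h2, h3, h4⟩

section
variable {K : Type} [Field K] (ι : K →+* Kb) (A : ValuationSubring Kb)

theorem intA_cR (α : LaurentSeries ↥(A.comap ι)) :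
    IntA A (coeffMap ι (cR ↥(A.comap ι) K α)) := by
  intro n
  exact (α.coeff n).2

theorem smallA_cR_iff (α : LaurentSeries ↥(A.comap ι)) :
    SmallA A (coeffMap ι (cR ↥(A.comap ι) K α)) ↔ ∀ n, ¬ IsUnit (α.coeff n) := by
  refine forall_congr' fun n => ?_
  have h1 : (coeffMap ι (cR ↥(A.comap ι) K α)).coeff n = ι ((α.coeff n : ↥(A.comap ι)) : K) := rfl
  rw [h1, ← S18.DVR.mem_nonunits_comap, ValuationSubring.coe_mem_nonunits_iff,
    IsLocalRing.mem_maximalIdeal, mem_nonunits_iff]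

theorem not_smallA_cR {α : LaurentSeries ↥(A.comap ι)} (h : Prim α) :
    ¬ SmallA A (coeffMap ι (cR ↥(A.comap ι) K α)) := by
  rw [smallA_cR_iff]
  obtain ⟨n, hn⟩ := h
  exact fun h' => h' n hn

variable [IsDiscreteValuationRing ↥(A.comap ι)]

theorem gi_of_mem {f : LaurentSeries K} (hf : InQF ↥(A.comap ι) f)
    (h : f ∈ gaussL ↥(A.comap ι) K) : GI A (coeffMap ι f) := by
  obtain ⟨α, β, hβ, e⟩ := hf.exists_frac h
  exact ⟨_, _, intA_cR ι A α, intA_cR ι A β, not_smallA_cR ι A hβ, by rw [← map_mul, e]⟩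

theorem gs_of_mem {f : LaurentSeries K} (hf : InQF ↥(A.comap ι) f)
    (h : f ∈ (gaussL ↥(A.comap ι) K).nonunits) : GS A (coeffMap ι f) := by
  obtain ⟨α, β, hβ, e⟩ := hf.exists_frac ((gaussL ↥(A.comap ι) K).nonunits_subset h)
  exact ⟨_, _, (smallA_cR_iff ι A α).2 ((frac_mem_nonunits_iff hβ e).1 h), intA_cR ι A β,
    not_smallA_cR ι A hβ, by rw [← map_mul, e]⟩

theorem gi_iff {f : LaurentSeries K} (hf : InQF ↥(A.comap ι) f) :
    f ∈ gaussL ↥(A.comap ι) K ↔ GI A (coeffMap ι f) := by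
  refine ⟨gi_of_mem ι A hf, ?_⟩
  rintro ⟨α₁, β₁, hα₁, hβ₁, hβ₁', e₁⟩
  by_contra hn
  have hf0 : f ≠ 0 := fun h => hn (h ▸ zero_mem _)
  have h2 : f⁻¹ ∈ (gaussL ↥(A.comap ι) K).nonunits := by
    rw [ValuationSubring.mem_nonunits_iff, map_inv₀]
    rw [← ValuationSubring.valuation_le_one_iff, not_le] at hn
    exact inv_lt_one_of_one_lt₀ hn
  obtain ⟨α₂, β₂, hα₂, hβ₂, hβ₂', e₂⟩ := gs_of_mem ι A hf.inv h2
  have hF0 : coeffMap ι f ≠ 0 := by rw [Ne, map_eq_zero]; exact hf0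
  rw [map_inv₀] at e₂
  have e3 : β₂ * β₁ = α₂ * α₁ := by
    rw [← e₁, ← e₂]
    field_simp
  exact not_smallA_mul hβ₂ hβ₁ hβ₂' hβ₁' (e3 ▸ SmallA.mul_right hα₂ hα₁)

theorem gs_iff {f : LaurentSeries K} (hf : InQF ↥(A.comap ι) f) :
    f ∈ (gaussL ↥(A.comap ι) K).nonunits ↔ GS A (coeffMap ι f) := by
  refine ⟨gs_of_mem ι A hf, ?_⟩
  rintro ⟨α₁, β₁, hα₁, hβ₁, hβ₁', e₁⟩
  by_contra hn
  have hf0 : f ≠ 0 := fun h => hn (by rw [h, ValuationSubring.mem_nonunits_iff, map_zero]; exact zero_lt_one)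
  have h2 : f⁻¹ ∈ gaussL ↥(A.comap ι) K := by
    rw [← ValuationSubring.valuation_le_one_iff, map_inv₀]
    rw [ValuationSubring.mem_nonunits_iff, not_lt] at hn
    exact inv_le_one_of_one_le₀ hn
  obtain ⟨α₂, β₂, hα₂, hβ₂, hβ₂', e₂⟩ := gi_of_mem ι A hf.inv h2
  have hF0 : coeffMap ι f ≠ 0 := by rw [Ne, map_eq_zero]; exact hf0
  rw [map_inv₀] at e₂
  have e3 : β₂ * β₁ = α₂ * α₁ := by
    rw [← e₁, ← e₂]
    field_simp
  exact not_smallA_mul hβ₂ hβ₁ hβ₂' hβ₁' (e3 ▸ SmallA.mul_left hα₁ hα₂)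

end

/-! ### the two branches -/

section
variable {K : Type} [Field K] [CharZero K] (ι : K →+* Kb) (A : ValuationSubring Kb)
  [IsDiscreteValuationRing ↥(A.comap ι)] {M q : ℕ} [NeZero M] [NeZero q] {E : Type} [Field E]
  [Algebra K E] [Algebra E ↥(S18.V.FK K (M * q))] [IsScalarTower K E ↥(S18.V.FK K (M * q))]
  {T : Two ↥(A.comap ι) K q E ↥(S18.V.FK K (M * q))} (hT : IsConc M q T)

include hT

theorem mem_Vi_iff (z : ↥(S18.V.FK K (M * q))) : z ∈ T.Vi ↔ GI A (toFN ι (M * q) z).1 := by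
  rw [T.mem_Vi, gi_iff ι A (T.inQF z), hT.jF_eq, S18.toFN_coe]

theorem mem_Vi_nonunits_iff (z : ↥(S18.V.FK K (M * q))) :
    z ∈ T.Vi.nonunits ↔ GS A (toFN ι (M * q) z).1 := by
  rw [T.mem_Vi_nonunits, gs_iff ι A (T.inQF z), hT.jF_eq, S18.toFN_coe]

theorem mem_V0_iff (hc : Nat.Coprime q M) (z : ↥(S18.V.FK K (M * q))) :
    z ∈ T.V0 ↔ GI A (WF M q (toFN ι (M * q) z)).1 := by
  rw [T.mem_V0', mem_Vi_iff ι A hT, hT.w_eq, WF_toFN M q hc]

theorem mem_V0_nonunits_iff (hc : Nat.Coprime q M) (z : ↥(S18.V.FK K (M * q))) :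
    z ∈ T.V0.nonunits ↔ GS A (WF M q (toFN ι (M * q) z)).1 := by
  rw [T.mem_V0_nonunits, mem_Vi_nonunits_iff ι A hT, hT.w_eq, WF_toFN M q hc]

end

end Fermat.Agent.S35
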