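import Fermat.Agent.S35.C.W
import Fermat.Agent.GES.Star

set_option autoImplicit false

/-!
# S35, chapter C : the `q`-expansion of the two degeneracy norms `F_{Nq} → F_N` (`q ∤ N`)

* `ringHom_ext_alpha_beta`: `F_{Nq}` is generated by `α(F_N)` and `β(F_N)`.
* `theta_g0`: the expansion at the cusp `0`-over-`q` is the expansion at `∞` of `w_q y`.
* `normA_qexp` **(NP1)**: `(N_α y)(t^q) = y(t^q) ∏_{i mod q} (w_q y)(ζ^i t)`.
* `normB_eq` **(NP2)**: `N_β y = N_α (w_q y)`.
* `normA_inclF'`, `normB_inclF'`: the norms commute with the change of the auxiliary level.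
-/

noncomputable section

open UpperHalfPlane ModularForm CongruenceSubgroup
open scoped MatrixGroups

namespace Fermat.Agent.S35

open AlgebraicCurve ModularCurve
open Fermat.Agent.S24 (Kb FN iotaK theta cuspChart)
open Fermat.Agent.GES
open Fermat.Agent.S36.AuxL (inclF coe_inclF)

/-- `F_{Nq}` is generated by `α(F_N)` and `β(F_N)`. -/
theorem ringHom_ext_alpha_beta (N q : ℕ) [NeZero N] [NeZero q] (hq : q.Prime) {M : Type*} [Field M]
    (f g : FN (N * q) →+* M)
    (ha : ∀ r : FN N, f (heckeAlphaBar Kb N q r) = g (heckeAlphaBar Kb N q r))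
    (hb : ∀ r : FN N, f (heckeBetaBar Kb N q r) = g (heckeBetaBar Kb N q r)) : f = g := by
  have key : f.comp ((eFK (N * q)).symm : Mod.FK Kb (N * q) →+* FN (N * q)) =
      g.comp ((eFK (N * q)).symm : Mod.FK Kb (N * q) →+* FN (N * q)) := by
    apply Mod.ringHom_ext_FK
    · intro a
      simp only [RingHom.comp_apply, RingHom.coe_coe, AlgEquiv.commutes]
      have h1 := ha (algebraMap Kb (FN N) a)
      rwa [AlgHom.commutes] at h1
    · intro d hd
      simp only [RingHom.comp_apply, RingHom.coe_coe]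
      obtain ⟨d1, d2, h1, h2, rfl⟩ := (Nat.dvd_mul).mp hd
      rcases (Nat.dvd_prime hq).mp h2 with rfl | rfl
      · have e : (eFK (N * q)).symm (Mod.jF Kb (N * q) (d1 * 1) hd) =
            heckeAlphaBar Kb N q ((eFK N).symm (Mod.jF Kb N d1 h1)) := by
          apply Subtype.ext
          rw [coe_eFK_symm, coe_heckeAlphaBar, coe_eFK_symm]
          show Mod.jS Kb (d1 * 1) = Mod.jS Kb d1
          rw [mul_one]
        rw [e, ha]
      · have e : (eFK (N * d2)).symm (Mod.jF Kb (N * d2) (d1 * d2) hd) =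
            heckeBetaBar Kb N d2 ((eFK N).symm (Mod.jF Kb N d1 h1)) := by
          apply Subtype.ext
          rw [coe_eFK_symm, coe_heckeBetaBar, coe_eFK_symm]
          show Mod.jS Kb (d1 * d2) = qExpand Kb d2 (Mod.jS Kb d1)
          rw [Mod.qExpand_jS, mul_comm]
        rw [e, hb]
  ext y
  have h := congrArg (fun φ : Mod.FK Kb (N * q) →+* M => φ (eFK (N * q) y)) key
  simpa only [RingHom.comp_apply, RingHom.coe_coe, AlgEquiv.symm_apply_apply] using h

/-- the ring hom `y ↦ y(s^N)`. -/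
def sEmb (N q : ℕ) [NeZero N] [NeZero q] : FN (N * q) →+* LaurentSeries ℂ :=
  (qExpand ℂ N).comp ((coeffMap iotaK).comp (algebraMap (FN (N * q)) (LaurentSeries Kb)))

theorem sEmb_apply (N q : ℕ) [NeZero N] [NeZero q] (y : FN (N * q)) :
    sEmb N q y = qExpand ℂ N (coeffMap iotaK (y : LaurentSeries Kb)) := rfl

/-- the ring hom `y ↦ (w_q y)(s^N)`. -/
def wEmb (N q : ℕ) [NeZero N] [NeZero q] : FN (N * q) →+* LaurentSeries ℂ :=
  (sEmb N q).comp (WF N q : FN (N * q) →+* FN (N * q))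

theorem wEmb_apply (N q : ℕ) [NeZero N] [NeZero q] (y : FN (N * q)) :
    wEmb N q y = qExpand ℂ N (coeffMap iotaK (WF N q y : LaurentSeries Kb)) := by
  rw [wEmb, RingHom.comp_apply, RingHom.coe_coe, sEmb_apply]

theorem theta_g0 (N q : ℕ) [NeZero N] [NeZero q] (hq : q.Prime) (hqN : ¬ q ∣ N) (g : SL(2, ℤ))
    (hgN : g ∈ Gamma0 N)
    (hg : ∀ f : FN N, theta (N * q) (cuspChart (N * q)) g (heckeBetaBar Kb N q f) =
        qExpand ℂ N (coeffMap iotaK (f : LaurentSeries Kb))) :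
    theta (N * q) (cuspChart (N * q)) g = wEmb N q := by
  have hc : Nat.Coprime q N := (Nat.Prime.coprime_iff_not_dvd hq).2 hqN
  apply ringHom_ext_alpha_beta N q hq
  · intro r
    rw [theta_alpha N q g hgN r, stdEmb_apply, wEmb_apply, WF_alpha N q hc, coe_heckeAlphaBar,
      coe_heckeBetaBar, coeffMap_qExpand, qExpand_mul']
  · intro r
    rw [hg r, wEmb_apply, WF_beta N q hc, coe_heckeAlphaBar]

/-- **(NP1)** -/
theorem normA_qexp (N q : ℕ) [NeZero N] [NeZero q] (hq : q.Prime) (hqN : ¬ q ∣ N) (ζ : Kbˣ)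
    (hζ : IsPrimitiveRoot ζ q) (y : FN (N * q)) :
    qExpand Kb q (normA N q y : LaurentSeries Kb) =
      qExpand Kb q (y : LaurentSeries Kb) *
        ∏ i : Fin q, S28.twist (ζ ^ (i : ℕ)) (WF N q y : LaurentSeries Kb) := by
  obtain ⟨g, hgN, hg⟩ := exists_g0 N q ((Nat.Prime.coprime_iff_not_dvd hq).2 hqN)
  obtain ⟨u0, hu0⟩ := IsAlgClosed.exists_pow_nat_eq (iotaK (ζ : Kb))
    (Nat.pos_of_ne_zero (NeZero.ne N))
  have hu00 : u0 ≠ 0 := by
    rintro rfl
    rw [zero_pow (NeZero.ne N)] at hu0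
    exact ζ.ne_zero (iotaK.injective (by rw [← hu0, map_zero]))
  set u : ℂˣ := Units.mk0 u0 hu00 with hu
  have huN : u ^ N = Units.map (iotaK : Kb →* ℂ) ζ := Units.ext (by simpa [hu] using hu0)
  have hprim : IsPrimitiveRoot (u ^ N) q := by
    rw [huN]
    exact hζ.map_of_injective (Units.map_injective iotaK.injective)
  have hu1 : u ^ (N * q) = 1 := by rw [pow_mul, hprim.pow_eq_one]
  let _ := algA N q
  have := finiteDimensional_algA N q
  have key := norm_eq_prod_of_embeddings (F := FN N) (E := FN (N * q)) (tauFam N q g u)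
    (tauFam_injective N q hq.two_le g u hprim hg)
    (fun a a' r => (tauFam_alpha N q g hgN u hu1 a r).trans (tauFam_alpha N q g hgN u hu1 a' r).symm)
    (by rw [Fintype.card_option, Fintype.card_fin, finrank_algA N q hq hqN])
    y none
  rw [Fintype.prod_option] at key
  have hsome : ∀ i : Fin q, tauFam N q g u (some i) y =
      qExpand ℂ N (S28.twist ((u ^ N) ^ (i : ℕ)) (coeffMap iotaK (WF N q y : LaurentSeries Kb))) := by
    intro i
    show S28.twist (u ^ (i : ℕ)) (theta (N * q) (cuspChart (N * q)) g y) = _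
    rw [theta_g0 N q hq hqN g hgN hg, wEmb_apply, twist_qExpand, pow_right_comm]
  have hnone : tauFam N q g u none y =
      qExpand ℂ N (qExpand ℂ q (coeffMap iotaK (y : LaurentSeries Kb))) := by
    show stdEmb (N * q) y = _
    rw [stdEmb_apply, qExpand_mul']
  simp only [hsome] at key
  rw [hnone] at key
  have hL : tauFam N q g u none (algebraMap (FN N) (FN (N * q)) (Algebra.norm (FN N) y)) =
      qExpand ℂ N (qExpand ℂ q (coeffMap iotaK (normA N q y : LaurentSeries Kb))) := by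
    have h1 : Algebra.norm (FN N) y = normA N q y := rfl
    have h2 : ∀ x : FN N, tauFam N q g u none (algebraMap (FN N) (FN (N * q)) x) =
        stdEmb (N * q) (heckeAlphaBar Kb N q x) := fun x => rfl
    rw [← qExpand_mul', h1, h2, stdEmb_apply, coe_heckeAlphaBar]
  rw [hL, ← map_prod, ← map_mul] at key
  have key2 := qExpand_injective N key
  apply Fermat.Agent.S24.phi_coeffMap_injective iotaK iotaK.injective
  rw [coeffMap_qExpand, key2, map_mul, map_prod, coeffMap_qExpand]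
  congr 1
  refine Finset.prod_congr rfl fun i _ => ?_
  rw [S28.coeffMap_twist, huN, map_pow]

/-- **(NP2)** -/
theorem normB_eq (N q : ℕ) [NeZero N] [NeZero q] (hc : Nat.Coprime q N) (y : FN (N * q)) :
    NEW.normB N q y = normA N q (WF N q y) := by
  have h := @Algebra.norm_eq_of_equiv_equiv (FN N) (FN (N * q)) (FN N) (FN (N * q)) _ _ _ _
    (NEW.algB N q) (algA N q) (RingEquiv.refl (FN N)) (WF N q : FN (N * q) ≃+* FN (N * q))
    (by
      refine RingHom.ext fun r => ?_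
      rw [RingHom.comp_apply, RingHom.comp_apply]
      exact (WF_beta N q hc r).symm) y
  exact h

theorem exists_zeta (q : ℕ) [NeZero q] : ∃ ζ : Kbˣ, IsPrimitiveRoot ζ q := by
  obtain ⟨ζ0, hζ0⟩ := HasEnoughRootsOfUnity.exists_primitiveRoot Kb q
  obtain ⟨ζ, rfl⟩ := hζ0.isUnit (NeZero.ne q)
  exact ⟨ζ, IsPrimitiveRoot.coe_units_iff.mp hζ0⟩

theorem normA_inclF' (q : ℕ) [NeZero q] {P₁ P₂ : ℕ} [NeZero P₁] [NeZero P₂] (h : P₁ ∣ P₂)
    (hq : q.Prime) (hq2 : ¬ q ∣ P₂) (x : FN (P₁ * q)) :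
    normA P₂ q (inclF (Nat.mul_dvd_mul_right h q) x) = inclF h (normA P₁ q x) := by
  obtain ⟨ζ, hζ⟩ := exists_zeta q
  have hq1 : ¬ q ∣ P₁ := fun h1 => hq2 (h1.trans h)
  apply Subtype.ext
  apply qExpand_injective (R := Kb) (N := q)
  rw [normA_qexp P₂ q hq hq2 ζ hζ, coe_inclF h, normA_qexp P₁ q hq hq1 ζ hζ,
    WF_inclF q h ((Nat.Prime.coprime_iff_not_dvd hq).2 hq2)]
  simp only [coe_inclF]

theorem normB_inclF' (q : ℕ) [NeZero q] {P₁ P₂ : ℕ} [NeZero P₁] [NeZero P₂] (h : P₁ ∣ P₂)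
    (hq : q.Prime) (hq2 : ¬ q ∣ P₂) (x : FN (P₁ * q)) :
    NEW.normB P₂ q (inclF (Nat.mul_dvd_mul_right h q) x) = inclF h (NEW.normB P₁ q x) := by
  have hq1 : ¬ q ∣ P₁ := fun h1 => hq2 (h1.trans h)
  rw [normB_eq P₂ q ((Nat.Prime.coprime_iff_not_dvd hq).2 hq2),
    normB_eq P₁ q ((Nat.Prime.coprime_iff_not_dvd hq).2 hq1),
    WF_inclF q h ((Nat.Prime.coprime_iff_not_dvd hq).2 hq2), normA_inclF' q h hq hq2]

end Fermat.Agent.S35
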