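import Fermat.Agent.S35.C.Bridge
import Fermat.Agent.S35.C.NP
import Fermat.Agent.S35.G.G1
import Fermat.Agent.S34.BR.Sep
import Fermat.Agent.S35.ASM.GeoB

set_option autoImplicit false
set_option linter.unusedSectionVars false

/-!
# S35, chapter C : the concrete form of (G1)

`N_α f = a ^ m`, `N_β f = b ^ m`  ⟹  there is `H` with `w f * s f * H ^ m ≡ 1` on both branches (in the `ℚ̄`-form of `Bridge.lean`).
-/

noncomputable section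

namespace Fermat.Agent.S35

open AlgebraicCurve ModularCurve IntermediateField
open Fermat.Agent.S24 (Kb FN iotaK)
open Fermat.Agent.S18 (IntA SmallA toFN)
open Fermat.Agent.S18.V (cR FK)
open Fermat.Agent.GES
open Fermat.Agent.S34 (Branches toFN_algebraMap)
open Fermat.Agent.S34.V2

/-- every nonzero function becomes a Gauss unit after multiplication by a constant. -/
theorem exists_gauss_const (L q : ℕ) [NeZero L] (hq : q.Prime) (A : ValuationSubring Kb)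
    (hA : A.LiesOverPrime q) (f : FN L) (hf : f ≠ 0) :
    ∃ c : Kb, c ≠ 0 ∧ GI A (algebraMap Kb (FN L) c * f).1 ∧ GI A (algebraMap Kb (FN L) c * f)⁻¹.1 := by
  have hbot : FiniteDimensional ℚ (⊥ : IntermediateField ℚ Kb) := inferInstance
  obtain ⟨K, _, _, _, ι, -, hs⟩ := S34.exists_descent_finset L ⊥ hbot {f}
  obtain ⟨f₀, hf₀⟩ := hs f (Finset.mem_singleton_self f)
  have : IsDiscreteValuationRing ↥(A.comap ι) := S18.isDVR_comap ι A hq hA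
  obtain ⟨ϖ, hϖ⟩ := IsDiscreteValuationRing.exists_irreducible ↥(A.comap ι)
  have hf₀0 : f₀ ≠ 0 := by
    rintro rfl
    exact hf (by rw [← hf₀, map_zero])
  have hf₀1 : f₀.1 ≠ 0 := fun h => hf₀0 (Subtype.ext h)
  have hQ : ∀ z : ↥(FK K L), InQF ↥(A.comap ι) z.1 := fun z => InQF.of_mem_FK z.2
  obtain ⟨k, h1, h2⟩ := (hQ f₀).exists_unit hϖ hf₀1
  set c₀ : K := ((ϖ : ↥(A.comap ι)) : K) ^ k with hc₀
  have hϖ0 : ((ϖ : ↥(A.comap ι)) : K) ≠ 0 := fun h => hϖ.ne_zero (Subtype.ext h)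
  have hc₀0 : c₀ ≠ 0 := zpow_ne_zero _ hϖ0
  have e1 : cst ↥(A.comap ι) K ϖ ^ k * f₀.1 = (algebraMap K ↥(FK K L) c₀ * f₀).1 := by
    have : cst ↥(A.comap ι) K ϖ ^ k = algebraMap K (LaurentSeries K) c₀ := by
      rw [hc₀, map_zpow₀]
      rfl
    rw [this]
    rfl
  have e2 : toFN ι L (algebraMap K ↥(FK K L) c₀ * f₀) = algebraMap Kb (FN L) (ι c₀) * f := by
    rw [map_mul, toFN_algebraMap, hf₀]
  refine ⟨ι c₀, (map_ne_zero ι).2 hc₀0, ?_, ?_⟩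
  · rw [← e2, S18.toFN_coe]
    rw [e1] at h1
    exact gi_of_mem ι A (hQ _) h1
  · rw [← e2, ← map_inv₀, S18.toFN_coe]
    rw [e1] at h2
    exact gi_of_mem ι A (hQ _) h2

section
variable {K : Type} [Field K] [NumberField K] [IsGalois ℚ K] (ι : K →+* Kb)
  (A : ValuationSubring Kb) [IsDiscreteValuationRing ↥(A.comap ι)] {N q : ℕ} [NeZero N] [NeZero q]

/-- a root of unity of `K` as a unit of `R = A ∩ K`. -/
theorem exists_unitR {n : ℕ} (hn : n ≠ 0) (ζ₀ : K) (h : ζ₀ ^ n = 1) :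
    ∃ z : (↥(A.comap ι))ˣ, ((z : ↥(A.comap ι)) : K) = ζ₀ := by
  have hmem : ∀ x : K, x ^ n = 1 → x ∈ A.comap ι := by
    intro x hx
    rw [← (A.comap ι).valuation_le_one_iff]
    have h1 : (A.comap ι).valuation x ^ n ≤ 1 := by rw [← map_pow, hx, map_one]
    exact (pow_le_one_iff hn).1 h1
  have h0 : ζ₀ ≠ 0 := by
    rintro rfl
    rw [zero_pow hn] at h
    exact zero_ne_one h
  exact ⟨⟨⟨ζ₀, hmem _ h⟩, ⟨ζ₀⁻¹, hmem _ (by rw [inv_pow, h, inv_one])⟩,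
    Subtype.ext (mul_inv_cancel₀ h0), Subtype.ext (inv_mul_cancel₀ h0)⟩, rfl⟩

theorem not_isUnit_sub_one (hq : q.Prime) (hA : A.LiesOverPrime q) (z : (↥(A.comap ι))ˣ)
    (h : z ^ q = 1) : ¬ IsUnit ((z : ↥(A.comap ι)) - 1) := by
  rw [Gal.isUnit_iff, not_not, Gal.mem_nonunits_comap]
  have hzA : ι ((z : ↥(A.comap ι)) : K) ∈ A := (z : ↥(A.comap ι)).2
  have h1 : (⟨ι ((z : ↥(A.comap ι)) : K), hzA⟩ : A) ^ q = 1 := by
    apply Subtype.ext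
    have h2 := congrArg (fun u : (↥(A.comap ι))ˣ => ι ((u : ↥(A.comap ι)) : K)) h
    simpa using h2
  have h3 := residue_eq_one_of_pow_eq_one A hq hA _ h1
  rw [← sub_eq_zero, ← map_one (IsLocalRing.residue A), ← map_sub,
    IsLocalRing.residue_eq_zero_iff, ← ValuationSubring.coe_mem_nonunits_iff] at h3
  have h4 : ι (((z : ↥(A.comap ι)) - 1 : ↥(A.comap ι)) : K) =
      (((⟨ι ((z : ↥(A.comap ι)) : K), hzA⟩ : A) - 1 : A) : Kb) := by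
    simp
  rw [h4]
  exact h3

/-- the two product formulas over `K`. -/
theorem prodK (hq : q.Prime) (hqN : ¬ q ∣ N) (ζ : Kbˣ) (hζ : IsPrimitiveRoot ζ q)
    (z : (↥(A.comap ι))ˣ) (hz : ι ((z : ↥(A.comap ι)) : K) = ζ) {m : ℕ}
    (f₀ : ↥(FK K (N * q))) (a₀ : LaurentSeries K) (a : FN N) (ha₀ : coeffMap ι a₀ = a.1)
    (ha : a ^ m = normA N q (toFN ι (N * q) f₀)) :
    qExpand K q a₀ ^ m = qExpand K q f₀.1 *
      ∏ i : Fin q, S28.twist (uK (K := K) z ^ (i : ℕ)) (Mod.wQ K (N * q) q f₀).1 := by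
  have hc : Nat.Coprime q N := (Nat.Prime.coprime_iff_not_dvd hq).2 hqN
  apply S24.phi_coeffMap_injective ι ι.injective
  have h1 := normA_qexp N q hq hqN ζ hζ (toFN ι (N * q) f₀)
  rw [← ha, WF_toFN N q hc] at h1
  have h2 : ((a ^ m : FN N) : LaurentSeries Kb) = a.1 ^ m := rfl
  rw [h2, S18.toFN_coe, S18.toFN_coe, map_pow] at h1
  rw [map_pow, coeffMap_qExpand, ha₀, h1, map_mul, coeffMap_qExpand, map_prod]
  congr 1
  refine Finset.prod_congr rfl fun i _ => ?_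
  have hu : Units.map (ι : K →* Kb) (uK (K := K) z) = ζ := Units.ext hz
  rw [S28.coeffMap_twist, map_pow, hu]

variable {E : Type} [Field E] [Algebra K E] [Algebra E ↥(FK K (N * q))]
  [IsScalarTower K E ↥(FK K (N * q))] (T : Two ↥(A.comap ι) K q E ↥(FK K (N * q)))

/-- (G1) over a number field containing everything. -/
theorem g1_K (hT : IsConc N q T) (hq : q.Prime) (hqN : ¬ q ∣ N) (hA : A.LiesOverPrime q)
    {ϖ : ↥(A.comap ι)} (hϖ : Irreducible ϖ) (hB : Branches (K := K) ϖ T.xF T.Vi T.V0)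
    {s : GQ} (hs : A.IsFrobeniusAt s q) (ζ : Kbˣ) (hζ : IsPrimitiveRoot ζ q) (ζ₀ : K)
    (hζ₀ : ι ζ₀ = ζ) {m : ℕ} (hm : m ≠ 0) (f₀ : ↥(FK K (N * q))) (hf₀ : f₀ ≠ 0) (a b : FN N)
    (a₁ b₁ : ↥(FK K (N * q))) (ha₁ : (toFN ι (N * q) a₁).1 = a.1)
    (hb₁ : (toFN ι (N * q) b₁).1 = b.1)
    (ha : a ^ m = normA N q (toFN ι (N * q) f₀))
    (hb : b ^ m = NEW.normB N q (toFN ι (N * q) f₀))
    (εi ε0 : K) (hεi : εi ≠ 0) (hε0 : ε0 ≠ 0)
    (h1 : GI A (algebraMap Kb (FN (N * q)) (ι εi ^ m)⁻¹ * toFN ι (N * q) f₀).1)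
    (h1' : GI A (algebraMap Kb (FN (N * q)) (ι εi ^ m)⁻¹ * toFN ι (N * q) f₀)⁻¹.1)
    (h2 : GI A (algebraMap Kb (FN (N * q)) (ι ε0 ^ m)⁻¹ * WF N q (toFN ι (N * q) f₀)).1)
    (h2' : GI A (algebraMap Kb (FN (N * q)) (ι ε0 ^ m)⁻¹ * WF N q (toFN ι (N * q) f₀))⁻¹.1) :
    ∃ H₀ : ↥(FK K (N * q)), H₀ ≠ 0 ∧
      T.w f₀ * galFK (resK ι s) (N * q) f₀ * H₀ ^ m - 1 ∈ T.Vi.nonunits ∧
      T.w f₀ * galFK (resK ι s) (N * q) f₀ * H₀ ^ m - 1 ∈ T.V0.nonunits := by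
  have hc : Nat.Coprime q N := (Nat.Prime.coprime_iff_not_dvd hq).2 hqN
  have hd := hs.mem_decompositionSubgroup
  have hζ₀q : ζ₀ ^ q = 1 := by
    apply ι.injective
    rw [map_pow, hζ₀, map_one, ← Units.val_pow_eq_pow_val, hζ.pow_eq_one, Units.val_one]
  obtain ⟨z, hz⟩ := exists_unitR ι A hq.ne_zero ζ₀ hζ₀q
  have hzq : z ^ q = 1 := by
    apply Units.ext
    apply Subtype.ext
    rw [Units.val_pow_eq_pow_val, Units.val_one]
    show ((z : ↥(A.comap ι)) : K) ^ q = 1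
    rw [hz, hζ₀q]
  have hz1 := not_isUnit_sub_one ι A hq hA z hzq
  have hzζ : ι ((z : ↥(A.comap ι)) : K) = ζ := by rw [hz, hζ₀]
  -- `a`, `b` in `E`
  have hmem : ∀ (c : FN N) (c₁ : ↥(FK K (N * q))), (toFN ι (N * q) c₁).1 = c.1 →
      ∃ c₀ : E, T.jE c₀ = c₁.1 := by
    intro c c₁ hc₁
    apply hT.jE_surj
    apply Mod.mem_FK_of_coeffMap ι N
    rw [← S18.toFN_coe, hc₁, Mod.FK_Kb N]
    exact c.2
  obtain ⟨a₀, ha₀⟩ := hmem a a₁ ha₁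
  obtain ⟨b₀, hb₀⟩ := hmem b b₁ hb₁
  have hne : ∀ (c : FN N) (c₁ : ↥(FK K (N * q))) (c₀ : E), (toFN ι (N * q) c₁).1 = c.1 →
      T.jE c₀ = c₁.1 → c ≠ 0 → c₀ ≠ 0 := by
    rintro c c₁ c₀ hc₁ hc₀ hc0 rfl
    rw [map_zero] at hc₀
    apply hc0
    apply Subtype.ext
    rw [← hc₁, S18.toFN_coe, ← hc₀, map_zero]
    rfl
  have hF0 : toFN ι (N * q) f₀ ≠ 0 := (map_ne_zero _).2 hf₀
  have ha0 : a ≠ 0 := by
    rintro rfl
    rw [zero_pow hm] at ha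
    exact ((isUnit_iff_ne_zero.2 hF0).map (normA N q)).ne_zero ha.symm
  have hb0 : b ≠ 0 := by
    rintro rfl
    rw [zero_pow hm] at hb
    exact ((isUnit_iff_ne_zero.2 hF0).map (NEW.normB N q)).ne_zero hb.symm
  have Hα := prodK ι A hq hqN ζ hζ z hzζ f₀ a₁.1 a (by rw [← S18.toFN_coe, ha₁]) ha
  have Hβ := prodK ι A hq hqN ζ hζ z hzζ (Mod.wQ K (N * q) q f₀) b₁.1 b
    (by rw [← S18.toFN_coe, hb₁]) (by rw [hb, normB_eq N q hc, WF_toFN N q hc])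
  rw [Mod.wQ_wQ K (N * q) q (dvd_mul_left q N) (coprime_div_aux hc)] at Hβ
  have tf : ∀ (ε : K) (g : ↥(FK K (N * q))),
      toFN ι (N * q) ((algebraMap K ↥(FK K (N * q)) (ε ^ m))⁻¹ * g) =
        algebraMap Kb (FN (N * q)) (ι ε ^ m)⁻¹ * toFN ι (N * q) g := by
    intro ε g
    rw [map_mul, map_inv₀, toFN_algebraMap, map_pow, map_inv₀]
  exact g1_abs T (resK ι s : K →+* K) (resR ι A hd) (resK_algebraMap ι A hd)
    (galFK (resK ι s) (N * q)) (conc_jF_galFK ι A hT _) (resR_frob ι A hs) z hz1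
    (conc_w_galFK ι A hT _) hϖ hB hf₀ (hne a a₁ a₀ ha₁ ha₀ ha0) (hne b b₁ b₀ hb₁ hb₀ hb0) hεi hε0
    (by rw [mem_Vi_iff ι A hT, tf]; exact h1)
    (by rw [mem_Vi_iff ι A hT, map_inv₀, tf]; exact h1')
    (by rw [mem_Vi_iff ι A hT, tf, hT.w_eq, ← WF_toFN N q hc]; exact h2)
    (by rw [mem_Vi_iff ι A hT, map_inv₀, tf, hT.w_eq, ← WF_toFN N q hc]; exact h2')
    (by rw [ha₀, hT.jF_eq, hT.jF_eq, hT.w_eq]; exact Hα)
    (by rw [hb₀, hT.jF_eq, hT.jF_eq, hT.w_eq]; exact Hβ)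

end

/-- **(G1)**, `ℚ̄`-form. -/
theorem g1_conc (N q r : ℕ) [NeZero N] [NeZero q] (hq : q.Prime) (hqN : ¬ q ∣ N)
    (hr : (q ≠ 3 ∧ r = 3) ∨ (q = 3 ∧ r = 2)) (hrN : r ∣ N) (m : ℕ) (hm : m ≠ 0)
    (A : ValuationSubring Kb) (hA : A.LiesOverPrime q) (s : GQ) (hs : A.IsFrobeniusAt s q)
    (f : FN (N * q)) (hf : f ≠ 0) (a b : FN N) (ha : a ^ m = normA N q f)
    (hb : b ^ m = NEW.normB N q f) :
    ∃ H : FN (N * q), H ≠ 0 ∧ GS A (WF N q f * galF (N * q) s f * H ^ m - 1).1 ∧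
      GS A (WF N q (WF N q f * galF (N * q) s f * H ^ m - 1)).1 := by
  classical
  have hc : Nat.Coprime q N := (Nat.Prime.coprime_iff_not_dvd hq).2 hqN
  have hrM : (S18.lineOf q).r ∣ N := by
    rcases hr with ⟨h3, rfl⟩ | ⟨rfl, rfl⟩
    · have e : S18.lineOf q = S18.line3 := if_neg h3
      rw [e]; exact hrN
    · have e : S18.lineOf 3 = S18.line2 := if_pos rfl
      rw [e]; exact hrN
  obtain ⟨p', hp', hp'q⟩ : ∃ p' : ℕ, p'.Prime ∧ p' ≠ q := by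
    by_cases h : q = 2
    · exact ⟨3, Nat.prime_three, by rw [h]; decide⟩
    · exact ⟨2, Nat.prime_two, Ne.symm h⟩
  have : NeZero p' := ⟨hp'.ne_zero⟩
  obtain ⟨ζ₀, hζ₀⟩ := HasEnoughRootsOfUnity.exists_primitiveRoot Kb p'
  obtain ⟨ζ₁, hζ₁⟩ := HasEnoughRootsOfUnity.exists_primitiveRoot Kb N
  obtain ⟨ζq, hζq⟩ := exists_zeta q
  have hWf : WF N q f ≠ 0 := (map_ne_zero_iff _ (WF N q).injective).2 hf
  obtain ⟨ci, hci0, hci, hci'⟩ := exists_gauss_const (N * q) q hq A hA f hf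
  obtain ⟨c0, hc00, hc0, hc0'⟩ := exists_gauss_const (N * q) q hq A hA (WF N q f) hWf
  obtain ⟨ei, hei⟩ := IsAlgClosed.exists_pow_nat_eq ci⁻¹ (Nat.pos_of_ne_zero hm)
  obtain ⟨e0, he0⟩ := IsAlgClosed.exists_pow_nat_eq c0⁻¹ (Nat.pos_of_ne_zero hm)
  have hK₁ : FiniteDimensional ℚ
      (IntermediateField.adjoin ℚ ({ζ₀, ζ₁, (ζq : Kb), ei, e0} : Set Kb)) := by
    apply IntermediateField.finiteDimensional_adjoin
    intro x _
    have h1 : Algebra.IsAlgebraic ℚ Kb := AlgebraicClosure.isAlgebraic ℚ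
    exact (Algebra.IsAlgebraic.isAlgebraic x).isIntegral
  obtain ⟨K, fK, nfK, galK, ι, hι, hs3⟩ := S34.exists_descent_finset (N * q) _ hK₁
    {f, heckeAlphaBar Kb N q a, heckeAlphaBar Kb N q b}
  obtain ⟨f₀, hf₀⟩ := hs3 f (by simp)
  obtain ⟨a₁, ha₁⟩ := hs3 (heckeAlphaBar Kb N q a) (by simp)
  obtain ⟨b₁, hb₁⟩ := hs3 (heckeAlphaBar Kb N q b) (by simp)
  obtain ⟨ζ, hζ⟩ := hι ζ₀ (IntermediateField.subset_adjoin ℚ _ (by simp))
  obtain ⟨ζM, hζM⟩ := hι ζ₁ (IntermediateField.subset_adjoin ℚ _ (by simp))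
  obtain ⟨ζq₀, hζq₀⟩ := hι (ζq : Kb) (IntermediateField.subset_adjoin ℚ _ (by simp))
  obtain ⟨εi, hεi⟩ := hι ei (IntermediateField.subset_adjoin ℚ _ (by simp))
  obtain ⟨ε0, hε0⟩ := hι e0 (IntermediateField.subset_adjoin ℚ _ (by simp))
  have hDVR : IsDiscreteValuationRing ↥(A.comap ι) := S18.isDVR_comap ι A hq hA
  obtain ⟨ϖ, hϖ⟩ := IsDiscreteValuationRing.exists_irreducible ↥(A.comap ι)
  obtain ⟨E, _, _, _, _, T, hT, hB, -, -, -⟩ := geoB N q p' hq hqN hrM A hA hp' hp'q K ι ζ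
    (IsPrimitiveRoot.of_map_of_injective (f := ι) (hζ ▸ hζ₀) ι.injective) ζM
    (IsPrimitiveRoot.of_map_of_injective (f := ι) (hζM ▸ hζ₁) ι.injective) hϖ hs
  have hf₀0 : f₀ ≠ 0 := by
    rintro rfl
    exact hf (by rw [← hf₀, map_zero])
  have hne : ∀ (e : Kb) (c : Kb) (ε : K), c ≠ 0 → e ^ m = c⁻¹ → ι ε = e → ε ≠ 0 := by
    rintro e c ε hc0 he hε rfl
    rw [map_zero] at hε
    rw [← hε, zero_pow hm] at he
    exact inv_ne_zero hc0 he.symm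
  have hinv : ∀ (e c : Kb), e ^ m = c⁻¹ → (e ^ m)⁻¹ = c := by
    intro e c he
    rw [he, inv_inv]
  obtain ⟨H₀, hH₀, hi, h0⟩ := g1_K ι A T hT hq hqN hA hϖ hB hs ζq hζq ζq₀ hζq₀ hm f₀ hf₀0 a b a₁ b₁
    (by rw [ha₁, coe_heckeAlphaBar]) (by rw [hb₁, coe_heckeAlphaBar]) (by rw [hf₀]; exact ha)
    (by rw [hf₀]; exact hb) εi ε0 (hne ei ci εi hci0 hei hεi) (hne e0 c0 ε0 hc00 he0 hε0)
    (by rw [hf₀, hεi, hinv ei ci hei]; exact hci) (by rw [hf₀, hεi, hinv ei ci hei]; exact hci')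
    (by rw [hf₀, hε0, hinv e0 c0 he0]; exact hc0) (by rw [hf₀, hε0, hinv e0 c0 he0]; exact hc0')
  have e : toFN ι (N * q) (T.w f₀ * galFK (resK ι s) (N * q) f₀ * H₀ ^ m - 1) =
      WF N q f * galF (N * q) s f * toFN ι (N * q) H₀ ^ m - 1 := by
    rw [map_sub, map_mul, map_mul, map_pow, map_one, hT.w_eq, ← WF_toFN N q hc, toFN_galFK, hf₀]
  refine ⟨toFN ι (N * q) H₀, (map_ne_zero _).2 hH₀, ?_, ?_⟩
  · rw [← e]
    exact (mem_Vi_nonunits_iff ι A hT _).1 hi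
  · rw [← e]
    exact (mem_V0_nonunits_iff ι A hT hc _).1 h0

end Fermat.Agent.S35
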